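import Fermat.Agent.Jac.Chart.Spread.Local
import Fermat.Agent.Jac.Field

/-!
# A frame from a section which is onto everywhere

If `N₁ = s ξ₁ + t₁ N₁` and `N₀ = s ξ₀ + Σ R β` with all fibres of `ξ` and `N` of degrees zero and
`g`, the sections `β` frame `s ξ₀` and the sub-bundle is `ξ`.
-/

set_option autoImplicit false

universe u

noncomputable section

open TensorProduct

namespace Fermat.Agent.Jac

variable {k : Type u} [Field k] {D : CurveData k}
variable {R : Type u} [CommRing R] [Algebra k R]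

namespace LB

/-- Over a field a homomorphism which is onto modulo the coordinate of the second chart is
nonzero. -/
theorem ne_zero_of_le_ontoSub {K : Type u} [Field K] [Algebra k K] {ξ N : LB D K} {s : (ξ.hom N).M}
    (h : N.L 1 ≤ ontoSub s) : s ≠ 0 := by
  rintro rfl
  have hI : Ideal.span {D.tR K 1} ≠ ⊥ := fun hb =>
    CurveData.tR_ne_zero (D := D) (K := K) 1 (Ideal.span_singleton_eq_bot.1 hb)
  have htop : (Ideal.span {D.tR K 1}) • (⊤ : Submodule (D.A K 1) (N.L 1)) = ⊤ := by
    refine eq_top_iff.2 fun m _ => ?_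
    obtain ⟨a, -, b, hb, e⟩ := mem_ontoSub.1 (h m.2)
    rw [show m = D.tR K 1 • (⟨b, hb⟩ : N.L 1) from Subtype.ext (by simpa using e.symm)]
    exact Submodule.smul_mem_smul (Ideal.mem_span_singleton_self _) trivial
  have hsub := Submodule.Quotient.subsingleton_iff.2 htop
  have h0 :
      Module.finrank K ((N.L 1) ⧸ Ideal.span {D.tR K 1} • (⊤ : Submodule (D.A K 1) (N.L 1))) = 0 :=
    Module.finrank_zero_of_subsingleton
  rw [finrank_quotient_smul_top hI, CurveData.span_tR_finrank (D := D) (K := K) 1] at h0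
  exact D.dInf_pos.ne' h0

variable {ξ N : LB D R} {g : ℕ} {β : Fin g → N.M}

/-- On a fibre over an algebraically closed field the sum map is injective. -/
theorem eq_zero_of_sum_eq_zero {L : Type u} [Field L] [Algebra k L] {ξ N : LB D L}
    {β : Fin g → N.M} (hβ : ∀ i, β i ∈ N.L 0) (hN : N.deg = g) (hξ : ξ.deg = 0) {s : (ξ.hom N).M}
    (hs : s ∈ (ξ.hom N).H0) (h₁ : N.L 1 ≤ ontoSub s)
    (h₂ : ∀ m ∈ N.L 0, ∃ a ∈ ξ.L 0, ∃ c : Fin g → L, toMap s a + ∑ i, c i • β i = m)
    {a : ξ.M} (ha : a ∈ ξ.L 0) {c : Fin g → L} (e : toMap s a + ∑ i, c i • β i = 0) :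
    a = 0 ∧ c = 0 := by
  have hinj : Function.Injective (toMap s) := injective_of_ne_zero (ne_zero_of_le_ontoSub h₁)
  have hQ := finite_quot_imageLattice hs (le_ontoSub_iff.1 h₁)
  have hsub : N.IsSubLattice 0 (imageLattice s) := ⟨imageLattice_le hs, hQ, inferInstance⟩
  have hdeg := deg_congr (subBundle_imageLattice_isomorphic hs (le_ontoSub_iff.1 h₁) hinj hsub)
  rw [deg_subBundle, hξ, hN] at hdeg
  set Q := (N.L 0) ⧸ (imageLattice s).comap (N.L 0).subtype
  let θ : (Fin g → L) →ₗ[L] Q :=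
    Fintype.linearCombination L fun i => (Submodule.Quotient.mk ⟨β i, hβ i⟩ : Q)
  have hθ : ∀ c : Fin g → L, θ c = Submodule.Quotient.mk
      ⟨∑ i, c i • β i, sum_mem fun i _ => (N.L 0).smul_of_tower_mem (c i) (hβ i)⟩ := fun c => by
    rw [show (⟨∑ i, c i • β i, sum_mem fun i _ => (N.L 0).smul_of_tower_mem (c i) (hβ i)⟩ : N.L 0) =
      ∑ i, c i • (⟨β i, hβ i⟩ : N.L 0) from Subtype.ext (by simp)]
    rw [← Submodule.mkQ_apply, map_sum]
    simp [θ, Fintype.linearCombination_apply]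
    rfl
  have hsurj : Function.Surjective θ := fun x => by
    obtain ⟨⟨m, hm⟩, rfl⟩ := Submodule.Quotient.mk_surjective _ x
    obtain ⟨b, hb, d, hbd⟩ := h₂ m hm
    refine ⟨d, ?_⟩
    rw [hθ, Submodule.Quotient.eq]
    exact ⟨-b, neg_mem hb, by
      change toMap s (-b) = (∑ i, d i • β i) - m
      rw [map_neg, ← hbd, sub_add_cancel_right]⟩
  have hθinj : Function.Injective θ :=
    (LinearMap.injective_iff_surjective_of_finrank_eq_finrank (by
      rw [Module.finrank_fin_fun]
      exact_mod_cast (sub_eq_zero.1 hdeg))).2 hsurj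
  have hc : c = 0 := hθinj (by
    rw [map_zero, hθ, Submodule.Quotient.mk_eq_zero]
    exact ⟨-a, neg_mem ha, by
      change toMap s (-a) = ∑ i, c i • β i
      rw [map_neg, neg_eq_iff_add_eq_zero, e]⟩)
  subst hc
  refine ⟨hinj ?_, rfl⟩
  simpa using e

/-- Ontoness of a sum map persists on base change. -/
private theorem exists_eq_sum_baseChange {L : Type u} [Field L] [Algebra k L] {χ : R →ₐ[k] L}
    {NL ξL : LB D L} (gN : Mor χ N NL) (gξ : Mor χ ξ ξL) {s : (ξ.hom N).M}
    (h₂ : ∀ m ∈ N.L 0, ∃ a ∈ ξ.L 0, ∃ c : Fin g → R, toMap s a + ∑ i, c i • β i = m) :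
    ∀ m ∈ NL.L 0, ∃ a ∈ ξL.L 0, ∃ c : Fin g → L,
      toMap ((gξ.hom gN).f s) a + ∑ i, c i • gN.f (β i) = m := by
  intro m hm
  have hm' : m ∈ Submodule.span L (gN.f '' (N.L 0 : Set N.M)) := by rw [← gN.span_base 0]; exact hm
  clear hm
  induction hm' using Submodule.span_induction with
  | mem x hx =>
    obtain ⟨n, hn, rfl⟩ := hx
    obtain ⟨a, ha, c, rfl⟩ := h₂ n hn
    refine ⟨gξ.f a, gξ.map_mem ha, fun i => χ (c i), ?_⟩
    rw [Mor.hom_apply gξ gN, map_add, map_sum]
    simp only [gN.f_smul_base]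
  | zero => exact ⟨0, zero_mem _, 0, by simp⟩
  | add x y _ _ hx hy =>
    obtain ⟨a, ha, c, rfl⟩ := hx
    obtain ⟨a', ha', c', rfl⟩ := hy
    exact ⟨a + a', add_mem ha ha', c + c', by
      simp only [map_add, Pi.add_apply, add_smul, Finset.sum_add_distrib]; abel⟩
  | smul r x _ hx =>
    obtain ⟨a, ha, c, rfl⟩ := hx
    exact ⟨r • a, (ξL.L 0).smul_of_tower_mem r ha, r • c, by
      rw [LinearMap.map_smul_of_tower, smul_add, Finset.smul_sum]
      simp only [Pi.smul_apply, smul_eq_mul, mul_smul]⟩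

/-- When `s` and `β` are onto, their sum map is injective: it is so on every geometric fibre. -/
private theorem eq_zero_of_onto (hβ : ∀ i, β i ∈ N.L 0)
    (hN : ∀ (K : Type u) [Field K] [IsAlgClosed K] [Algebra k K] (φ : R →ₐ[k] K) (L : LB D K),
      Mor φ N L → L.deg = g)
    (hξ : ξ.FibreDegZero) {s : (ξ.hom N).M} (hs : s ∈ (ξ.hom N).H0) (h₁ : N.L 1 ≤ ontoSub s)
    (h₂ : ∀ m ∈ N.L 0, ∃ a ∈ ξ.L 0, ∃ c : Fin g → R, toMap s a + ∑ i, c i • β i = m)
    {a : ξ.M} (ha : a ∈ ξ.L 0) {c : Fin g → R} (e : toMap s a + ∑ i, c i • β i = 0) :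
    a = 0 ∧ c = 0 := by
  let f₀ : (ξ.L 0) × (Fin g → R) →ₗ[R] N.M :=
    ((toMap s).restrictScalars R ∘ₗ (ξ.L 0).subtype.restrictScalars R).coprod
      (Fintype.linearCombination R β)
  have hf₀ : ∀ y, f₀ y = toMap s y.1 + ∑ i, y.2 i • β i := fun y => by
    simp [f₀, Fintype.linearCombination_apply]
  have hmem : ∀ y, f₀ y ∈ N.L 0 := fun y => by
    rw [hf₀]
    exact add_mem (mem_hom.1 hs.1 _ y.1.2) (sum_mem fun i _ => (N.L 0).smul_of_tower_mem _ (hβ i))
  let Ψ : (ξ.L 0) × (Fin g → R) →ₗ[R] N.L 0 :=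
    { toFun := fun y => ⟨f₀ y, hmem y⟩
      map_add' := fun y y' => Subtype.ext (map_add f₀ y y')
      map_smul' := fun r y => Subtype.ext (map_smul f₀ r y) }
  have hΨ : Function.Injective Ψ := by
    have := ξ.projective_L 0
    have := N.projective_L 0
    -- It suffices to be injective over the algebraic closure of each residue field, by degrees.
    refine injective_of_fibres Ψ fun p => ?_
    let L := AlgebraicClosure p.asIdeal.ResidueField
    let χ : R →ₐ[k] L := IsScalarTower.toAlgHom k R L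
    let NL := N.baseChange χ
    let ξL := ξ.baseChange χ
    let gN : Mor (IsScalarTower.toAlgHom k R L) N NL := N.toBaseChange χ
    let gξ : Mor (IsScalarTower.toAlgHom k R L) ξ ξL := ξ.toBaseChange χ
    let : Module R NL.M := Module.compHom NL.M (algebraMap R L)
    have : IsScalarTower R L NL.M := IsScalarTower.of_algebraMap_smul fun _ _ => rfl
    let : Module R ξL.M := Module.compHom ξL.M (algebraMap R L)
    have : IsScalarTower R L ξL.M := IsScalarTower.of_algebraMap_smul fun _ _ => rfl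
    let sL := (gξ.hom gN).f s
    have hβL : ∀ i, gN.f (β i) ∈ NL.L 0 := fun i => gN.map_mem (hβ i)
    have h₁L : NL.L 1 ≤ ontoSub sL :=
      le_ontoSub_hom gξ gN (r := 1) (by rw [map_one]; exact isUnit_one) fun m hm => by
        rw [one_smul]; exact h₁ hm
    have h₂L : ∀ m ∈ NL.L 0, ∃ a ∈ ξL.L 0, ∃ c : Fin g → L,
        toMap sL a + ∑ i, c i • gN.f (β i) = m :=
      exists_eq_sum_baseChange gN gξ h₂
    let ΨL : ↥((ξL.L 0).restrictScalars L) × (Fin g → L) →ₗ[L] NL.M :=
      ((toMap sL).restrictScalars L ∘ₗ ((ξL.L 0).restrictScalars L).subtype).coprod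
        (Fintype.linearCombination L fun i => gN.f (β i))
    have hΨL : Function.Injective ΨL := (injective_iff_map_eq_zero ΨL).2 fun y hy => by
      obtain ⟨ha, hc⟩ := eq_zero_of_sum_eq_zero hβL (hN L χ NL gN) (hξ L χ ξL gξ)
        (Mor.hom_mem_H0 gξ gN hs)
        h₁L h₂L (a := (y.1 : ξL.M)) y.1.2 (c := y.2) (by
          simpa [ΨL, Fintype.linearCombination_apply] using hy)
      exact Prod.ext (Subtype.ext ha) hc
    refine baseChange_injective_of_field_ext (L := L) Ψ ?_
    have hP : IsBaseChange L ((gξ.lattice 0).prodMap ((Algebra.linearMap R L).compLeft (Fin g))) :=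
      (gξ.isBaseChange_lattice 0).prodMap _ _ ((IsBaseChange.linearMap R L).finitePow (Fin g))
    have key : ∀ z, (((NL.L 0).restrictScalars L).subtype ((gN.isBaseChange_lattice 0).equiv
        (Ψ.baseChange L z))) = ΨL (hP.equiv z) := fun z => by
      refine LinearMap.congr_fun
        (f := ((NL.L 0).restrictScalars L).subtype ∘ₗ
          (gN.isBaseChange_lattice 0).equiv.toLinearMap ∘ₗ
          Ψ.baseChange L) (g := ΨL ∘ₗ hP.equiv.toLinearMap) ?_ z
      refine TensorProduct.AlgebraTensorModule.curry_injective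
        (LinearMap.ext fun c => LinearMap.ext fun y => ?_)
      simp only [TensorProduct.AlgebraTensorModule.curry_apply, TensorProduct.curry_apply,
        LinearMap.restrictScalars_apply, LinearMap.comp_apply, LinearEquiv.coe_coe,
        LinearMap.baseChange_tmul,
        IsBaseChange.equiv_tmul, map_smul]
      congr 1
      change gN.f (f₀ y) = _
      rw [hf₀]
      simp [ΨL, sL, Fintype.linearCombination_apply, Mor.hom_apply gξ gN, map_sum, gN.f_smul_base]
    intro x y hxy
    refine hP.equiv.injective (hΨL ?_)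
    rw [← key, ← key, hxy]
  have := hΨ (a₁ := (⟨a, ha⟩, c)) (a₂ := 0) (Subtype.ext (by
    change f₀ _ = f₀ 0
    rw [map_zero, hf₀, e]))
  exact ⟨congrArg (Subtype.val ∘ Prod.fst) this, congrArg Prod.snd this⟩

/-- A frame and an isomorphism with the sub-bundle from a section which is onto everywhere. -/
theorem exists_isFrame_of_onto (hβ : ∀ i, β i ∈ N.L 0)
    (hN : ∀ (K : Type u) [Field K] [IsAlgClosed K] [Algebra k K] (φ : R →ₐ[k] K) (L : LB D K),
      Mor φ N L → L.deg = g)
    (hξ : ξ.FibreDegZero) {s : (ξ.hom N).M} (hs : s ∈ (ξ.hom N).H0) (h₁ : N.L 1 ≤ ontoSub s)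
    (h₂ : ∀ m ∈ N.L 0, ∃ a ∈ ξ.L 0, ∃ c : Fin g → R, toMap s a + ∑ i, c i • β i = m) :
    ∃ h : N.IsFrame β (imageLattice s),
      (N.subBundle 0 (imageLattice s) h.isSubLattice).Isomorphic ξ := by
  have hunique : ∀ {a : ξ.M} (_ : a ∈ ξ.L 0) {c : Fin g → R}, toMap s a + ∑ i, c i • β i = 0 →
      a = 0 ∧ c = 0 := fun ha _ e => eq_zero_of_onto hβ hN hξ hs h₁ h₂ ha e
  -- So the coordinates on `β` modulo the image of `s` exist and are unique.
  have hframe : N.IsFrame β (imageLattice s) := by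
    refine ⟨imageLattice_le hs, hβ, fun m hm => ?_⟩
    obtain ⟨a, ha, c, e⟩ := h₂ m hm
    refine ⟨c, ⟨a, ha, ?_⟩, fun c' hc' => ?_⟩
    · exact eq_sub_of_add_eq e
    · obtain ⟨a', ha', e'⟩ := hc'
      have e'' : toMap s a' = m - ∑ i, c' i • β i := e'
      have := (hunique (a := a' - a) (sub_mem ha' ha) (c := c' - c) (by
        simp only [map_sub, Pi.sub_apply, sub_smul, Finset.sum_sub_distrib]
        rw [e'', ← e]; abel)).2
      exact sub_eq_zero.1 this
  have hinj : Function.Injective (toMap s) := (injective_iff_map_eq_zero _).2 fun x hx => by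
    obtain ⟨n, hn⟩ := ξ.exists_uR_pow_smul_mem 0 x
    have h0 := (hunique hn (c := 0) (by simp [hx])).1
    have := congrArg (D.uR R 1 ^ n • ·) h0
    simpa [smul_smul, D.uR_pow_mul R (show (1 : Fin 2) ≠ 0 by decide)] using this
  exact ⟨hframe, subBundle_imageLattice_isomorphic hs
    (le_ontoSub_iff.1 h₁) hinj hframe.isSubLattice⟩

/-- A global frame gives frames near every point. -/
theorem frameNear_of_isFrame {S : Submodule (D.A R 0) N.M} (h : N.IsFrame β S)
    (hiso : (N.subBundle 0 S h.isSubLattice).Isomorphic ξ) {K : Type u} [Field K] [Algebra k K]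
    (φ : R →ₐ[k] K) :
    FrameNear ξ N β φ := by
  refine ⟨1, by simp, fun R' _ _ φ' _ N' ξ' gN' gξ' => ?_⟩
  obtain ⟨h', -⟩ := h.map gN'
  exact ⟨_, h', ⟨(gN'.sub h.isSubLattice).targetIso (gξ'.isoTrans hiso.some)⟩⟩

end LB

end Fermat.Agent.Jac

end
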