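import Fermat.Agent.Jac.Cohom

/-!
# Sections which are onto along the zeros of the coordinate of the second chart

A section `s` of `hom ξ N` with `N₁ = s ξ₁ + t₁ N₁` has cokernel finite over the base, and if it is
injective it identifies `ξ` with the sub-bundle cut out by `s ξ₀`.
-/

set_option autoImplicit false

universe u

noncomputable section

open TensorProduct

namespace Fermat.Agent.Jac

variable {k : Type u} [Field k] {D : CurveData k}
variable {R R' : Type u} [CommRing R] [Algebra k R] [CommRing R'] [Algebra k R']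

namespace LB

/-- The image of the first chart under a homomorphism. -/
def imageLattice {ξ N : LB D R} (s : (ξ.hom N).M) : Submodule (D.A R 0) N.M :=
  (ξ.L 0).map ((toMap s).restrictScalars (D.A R 0))

/-- The elements of the second chart reached by a homomorphism modulo the coordinate. -/
def ontoSub {ξ N : LB D R} (s : (ξ.hom N).M) : Submodule (D.A R 1) N.M :=
  (ξ.L 1).map ((toMap s).restrictScalars (D.A R 1)) ⊔
    (N.L 1).map (LinearMap.lsmul (D.A R 1) N.M (D.tR R 1))

variable {ξ N : LB D R} {s : (ξ.hom N).M}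

/-- The elements reached by `s` modulo the coordinate are the `s(a) + t b` with `a` and `b` in the
second lattices. -/
theorem mem_ontoSub {x : N.M} :
    x ∈ ontoSub s ↔ ∃ a ∈ ξ.L 1, ∃ b ∈ N.L 1, toMap s a + D.tR R 1 • b = x := by
  constructor
  · intro h
    obtain ⟨_, ⟨a, ha, rfl⟩, _, ⟨b, hb, rfl⟩, rfl⟩ := Submodule.mem_sup.1 h
    exact ⟨a, ha, b, hb, rfl⟩
  · rintro ⟨a, ha, b, hb, rfl⟩
    exact Submodule.mem_sup.2 ⟨_, ⟨a, ha, rfl⟩, _, ⟨b, hb, rfl⟩, rfl⟩

/-- A homomorphism is onto modulo the coordinate of the second chart, spelled out on elements. -/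
theorem le_ontoSub_iff :
    N.L 1 ≤ ontoSub s ↔ ∀ m ∈ N.L 1, ∃ a ∈ ξ.L 1, ∃ b ∈ N.L 1, m = toMap s a + D.tR R 1 • b := by
  refine ⟨fun h m hm => ?_, fun h m hm => ?_⟩
  · obtain ⟨a, ha, b, hb, e⟩ := mem_ontoSub.1 (h hm)
    exact ⟨a, ha, b, hb, e.symm⟩
  · obtain ⟨a, ha, b, hb, e⟩ := h m hm
    exact mem_ontoSub.2 ⟨a, ha, b, hb, e.symm⟩

/-- The image of the first chart under a global homomorphism lies in the first chart. -/
theorem imageLattice_le (hs : s ∈ (ξ.hom N).H0) : imageLattice s ≤ N.L 0 := by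
  rintro _ ⟨a, ha, rfl⟩
  exact mem_hom.1 hs.1 a ha

theorem span_uR_mem_aeval (L : LB D R) {i : Fin 2} (s₀ : Finset L.M) {x : L.M}
    (hx : x ∈ Submodule.span R (Set.range fun p : ℕ × s₀ => D.uR R i ^ p.1 • (p.2 : L.M))) :
    ∃ p : s₀ → Polynomial R, x = ∑ c : s₀, Polynomial.aeval (D.uR R i) (p c) • (c : L.M) := by
  classical
  induction hx using Submodule.span_induction with
  | mem y hy =>
    obtain ⟨⟨l, c⟩, rfl⟩ := hy
    refine ⟨Pi.single c (Polynomial.X ^ l), ?_⟩
    rw [Finset.sum_eq_single_of_mem c (Finset.mem_univ c) fun d _ hd => by simp [hd]]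
    simp
  | zero => exact ⟨0, by simp⟩
  | add y z _ _ hy hz =>
    obtain ⟨p, rfl⟩ := hy
    obtain ⟨q, rfl⟩ := hz
    exact ⟨p + q, by simp [map_add, add_smul, Finset.sum_add_distrib]⟩
  | smul r y _ hy =>
    obtain ⟨p, rfl⟩ := hy
    exact ⟨r • p, by simp [Finset.smul_sum, map_smul, smul_assoc]⟩

theorem aeval_uR_smul (L : LB D R) (i : Fin 2) (P : Polynomial R) (m : L.M) :
    Polynomial.aeval (D.uR R i) P • m = Polynomial.aeval (D.tR R i) P • m := by
  rw [CurveData.uR, Polynomial.aeval_algebraMap_apply, algebraMap_smul]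

/-- Nakayama with an explicit polynomial. -/
theorem exists_aeval_smul_mem (h₁ : N.L 1 ≤ ontoSub s) :
    ∃ P : Polynomial R, P.coeff 0 = 1 ∧
      ∀ m ∈ N.L 1, Polynomial.aeval (D.uR R 1) P • m ∈
        (ξ.L 1).map ((toMap s).restrictScalars (D.A R 1)) := by
  classical
  obtain ⟨G, hG, hspan⟩ := N.exists_generators 1
  set V := (ξ.L 1).map ((toMap s).restrictScalars (D.A R 1)) with hV
  have haeval : ∀ (P : Polynomial R) (v : N.M), v ∈ V →
      Polynomial.aeval (D.uR R 1) P • v ∈ V := fun P v hv => by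
    rw [aeval_uR_smul]
    exact V.smul_mem _ hv
  -- Each generator lies in the image plus `u` times a combination of the generators.
  have hgen : ∀ c : G, ∃ p : G → Polynomial R,
      (c : N.M) - D.uR R 1 • ∑ d, Polynomial.aeval (D.uR R 1) (p d) • (d : N.M) ∈ V := by
    intro c
    obtain ⟨a, ha, b, hb, e⟩ := mem_ontoSub.1 (h₁ (hG c.2))
    obtain ⟨p, hp⟩ := N.span_uR_mem_aeval G (hspan hb)
    refine ⟨p, ?_⟩
    rw [← hp, CurveData.uR, algebraMap_smul, ← e, add_sub_cancel_right]
    exact ⟨a, ha, rfl⟩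
  choose p hp using hgen
  let M : Matrix G G (Polynomial R) := 1 - Matrix.of fun c d => Polynomial.X * p c d
  have hM : ∀ c, ∑ d, Polynomial.aeval (D.uR R 1) (M c d) • (d : N.M) ∈ V := by
    intro c
    refine (congrArg (· ∈ V) ?_).mpr (hp c)
    simp only [M, Matrix.sub_apply, Matrix.of_apply, map_sub, map_mul, Polynomial.aeval_X, sub_smul,
      Finset.sum_sub_distrib, mul_smul, ← Finset.smul_sum]
    congr 1
    rw [Finset.sum_eq_single_of_mem c (Finset.mem_univ c) fun d _ hd => by simp [Ne.symm hd]]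
    simp
  -- The determinant of that system kills the generators modulo the image and is `1` at `u = 0`.
  refine ⟨M.det, ?_, fun m hm => ?_⟩
  · rw [← Polynomial.constantCoeff_apply, RingHom.map_det]
    refine (congrArg Matrix.det ?_).trans Matrix.det_one
    ext c d
    by_cases h : c = d <;> simp [M, h, Matrix.one_apply, Polynomial.constantCoeff_apply]
  have hdet : ∀ e : G, Polynomial.aeval (D.uR R 1) M.det • (e : N.M) ∈ V := by
    intro e
    have h := congrFun (congrFun (Matrix.adjugate_mul M) e)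
    have : ∑ c, Polynomial.aeval (D.uR R 1) (M.adjugate e c) •
        ∑ d, Polynomial.aeval (D.uR R 1) (M c d) • (d : N.M) =
          Polynomial.aeval (D.uR R 1) M.det • (e : N.M) := by
      simp only [Finset.smul_sum, smul_smul, ← map_mul]
      rw [Finset.sum_comm, Finset.sum_eq_single_of_mem e (Finset.mem_univ e)]
      · rw [← Finset.sum_smul, ← map_sum, ← Matrix.mul_apply, h]
        simp
      · intro d _ hd
        rw [← Finset.sum_smul, ← map_sum, ← Matrix.mul_apply, h]
        simp [Ne.symm hd]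
    rw [← this]
    exact sum_mem fun c _ => haeval _ _ (hM c)
  obtain ⟨q, rfl⟩ := N.span_uR_mem_aeval G (hspan hm)
  rw [Finset.smul_sum]
  refine sum_mem fun c _ => ?_
  rw [smul_comm]
  exact haeval _ _ (hdet c)

/-- A section which is onto at infinity has cokernel finite over the base. -/
theorem finite_quot_imageLattice (hs : s ∈ (ξ.hom N).H0)
    (h₁ : ∀ m ∈ N.L 1, ∃ a ∈ ξ.L 1, ∃ b ∈ N.L 1, m = toMap s a + D.tR R 1 • b) :
    Module.Finite R ((N.L 0) ⧸ (imageLattice s).comap (N.L 0).subtype) := by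
  classical
  rcases subsingleton_or_nontrivial R with hR | hR
  · have : Subsingleton N.M := Module.subsingleton R N.M
    infer_instance
  obtain ⟨P, hP0, hP⟩ := exists_aeval_smul_mem (le_ontoSub_iff.2 h₁)
  have hPtrail : P.natTrailingDegree = 0 :=
    Nat.le_zero.1 (Polynomial.natTrailingDegree_le_of_ne_zero (by rw [hP0]; exact one_ne_zero))
  have hrev : P.reverse.Monic := by
    rw [Polynomial.Monic, Polynomial.reverse_leadingCoeff, Polynomial.trailingCoeff, hPtrail, hP0]
  -- every element of the first chart is killed modulo the image by a monic polynomial in the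
  -- coordinate
  have hkill : ∀ y ∈ N.L 0, ∃ F : Polynomial R, F.Monic ∧
      Polynomial.aeval (D.uR R 0) F • y ∈ imageLattice s := by
    intro y hy
    obtain ⟨n, hn⟩ := N.exists_uR_pow_smul_mem 1 y
    obtain ⟨a, -, ha⟩ := hP _ hn
    change toMap s a = _ at ha
    obtain ⟨l, hl⟩ := ξ.exists_uR_pow_smul_mem 0 (D.uR R 0 ^ n • D.uR R 0 ^ P.natDegree • a)
    refine ⟨Polynomial.X ^ l * P.reverse, (Polynomial.monic_X_pow l).mul hrev, _, hl, ?_⟩
    let _ : Invertible (D.uR R 1) :=
      ⟨D.uR R 0, D.uR_mul_of_ne R (by decide), D.uR_mul_of_ne R (by decide)⟩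
    have hP' : Polynomial.aeval (D.uR R 0) P.reverse * D.uR R 1 ^ P.natDegree =
        Polynomial.aeval (D.uR R 1) P :=
          Polynomial.eval₂_reverse_mul_pow (algebraMap R (D.A01 R)) (D.uR R 1) P
    change toMap s _ = _
    rw [map_smul, map_smul, map_smul, ha, smul_smul, smul_smul, smul_smul, smul_smul, map_mul,
      map_pow, Polynomial.aeval_X, ← hP']
    congr 1
    linear_combination (D.uR R 0 ^ l * Polynomial.aeval (D.uR R 0) P.reverse *
      (D.uR R 0 ^ n * D.uR R 1 ^ n)) *
      D.uR_pow_mul R (show (0 : Fin 2) ≠ 1 by decide) P.natDegree +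
      (D.uR R 0 ^ l * Polynomial.aeval (D.uR R 0) P.reverse) *
        D.uR_pow_mul R (show (0 : Fin 2) ≠ 1 by decide) n
  obtain ⟨G, hG, hspan⟩ := N.exists_generators 0
  choose F hFm hF using fun c : G => hkill c (hG c.2)
  let d := Finset.univ.sup fun c : G => (F c).natDegree
  let Q := (N.L 0) ⧸ (imageLattice s).comap (N.L 0).subtype
  let gen : G × Fin (d + 1) → Q := fun c =>
    Submodule.Quotient.mk ⟨D.uR R 0 ^ (c.2 : ℕ) • (c.1 : N.M), N.uR_pow_smul_mem (hG c.1.2)⟩
  refine ⟨Submodule.fg_def.2 ⟨Set.range gen, Set.finite_range gen, eq_top_iff.2 fun x _ => ?_⟩⟩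
  obtain ⟨⟨m, hm⟩, rfl⟩ := Submodule.Quotient.mk_surjective _ x
  -- the submodule of elements whose class lies in the span of the generators
  let W : Submodule R N.M := ((Submodule.span R (Set.range gen)).comap
      (((imageLattice s).comap (N.L 0).subtype).mkQ.restrictScalars R)).map
        ((N.L 0).subtype.restrictScalars R)
  have hW : ∀ (c : G) (l : ℕ), D.uR R 0 ^ l • (c : N.M) ∈ W := by
    intro c l
    have e := Polynomial.modByMonic_add_div (Polynomial.X ^ l : Polynomial R) (F c)
    have e' := congrArg (fun q => Polynomial.aeval (D.uR R 0) q • (c : N.M)) e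
    simp only [map_add, map_mul, map_pow, Polynomial.aeval_X, add_smul] at e'
    rw [← e']
    refine add_mem ?_ ?_
    · rcases eq_or_ne (F c) 1 with h1 | h1
      · simp [h1, Polynomial.modByMonic_one]
      rw [Polynomial.aeval_eq_sum_range' (n := d + 1)
        ((Polynomial.natDegree_modByMonic_lt _ (hFm c) h1).trans_le
        ((Finset.le_sup (f := fun c : G => (F c).natDegree) (Finset.mem_univ c)).trans
          (Nat.le_succ d))),
        Finset.sum_smul]
      refine sum_mem fun j hj => ?_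
      rw [smul_assoc]
      refine W.smul_mem _ ⟨⟨_, N.uR_pow_smul_mem (hG c.2)⟩, ?_, rfl⟩
      exact Submodule.subset_span ⟨(c, ⟨j, Finset.mem_range.1 hj⟩), rfl⟩
    · rw [mul_comm, mul_smul]
      set z : N.M := Polynomial.aeval (D.uR R 0) (F c) • (c : N.M)
      have hmem : Polynomial.aeval (D.uR R 0) (Polynomial.X ^ l /ₘ F c) • z ∈ imageLattice s :=
        (N.aeval_uR_smul 0 _ z).symm ▸ (imageLattice s).smul_mem _ (hF c)
      refine ⟨⟨_, imageLattice_le hs hmem⟩, ?_, rfl⟩
      change ((imageLattice s).comap (N.L 0).subtype).mkQ (⟨_, imageLattice_le hs hmem⟩ : N.L 0) ∈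
        Submodule.span R (Set.range gen)
      rw [Submodule.mkQ_apply,
        (Submodule.Quotient.mk_eq_zero ((imageLattice s).comap (N.L 0).subtype)).2 hmem]
      exact zero_mem _
  have hle : Submodule.span R (Set.range fun p : ℕ × G => D.uR R 0 ^ p.1 • (p.2 : N.M)) ≤ W :=
    Submodule.span_le.2 (by rintro _ ⟨⟨l, c⟩, rfl⟩; exact hW c l)
  obtain ⟨⟨y, hy⟩, hy', rfl⟩ := hle (hspan hm)
  exact hy'

/-- A section which is onto at infinity gives an isomorphism with the sub-bundle. -/
theorem subBundle_imageLattice_isomorphic (hs : s ∈ (ξ.hom N).H0)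
    (h₁ : ∀ m ∈ N.L 1, ∃ a ∈ ξ.L 1, ∃ b ∈ N.L 1, m = toMap s a + D.tR R 1 • b)
    (hinj : Function.Injective (toMap s)) (h : N.IsSubLattice 0 (imageLattice s)) :
    (N.subBundle 0 (imageLattice s) h).Isomorphic ξ := by
  obtain ⟨P, hP0, hP⟩ := exists_aeval_smul_mem (le_ontoSub_iff.2 h₁)
  have hspan : Submodule.span (D.A01 R) (imageLattice s : Set N.M) = LinearMap.range (toMap s) := by
    rw [imageLattice, Submodule.map_coe, LinearMap.coe_restrictScalars, ← Submodule.map_span,
      ξ.span_L 0, Submodule.map_top]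
  let e : (N.subBundle 0 (imageLattice s) h).M ≃ₗ[D.A01 R] ξ.M :=
    LinearEquiv.ofEq _ _ hspan ≪≫ₗ (LinearEquiv.ofInjective (toMap s) hinj).symm
  have he : ∀ m, toMap s (e m) = m.1 := fun m => by
    have := congrArg Subtype.val
      ((LinearEquiv.ofInjective (toMap s) hinj).apply_symm_apply (LinearEquiv.ofEq _ _ hspan m))
    exact this
  refine ⟨⟨e, fun i m => ?_⟩⟩
  have hmem : ∀ x : ξ.M, x ∈ ξ.L i → toMap s x ∈ N.L i := by
    fin_cases i
    exacts [mem_hom.1 hs.1, mem_hom.1 hs.2]
  change e m ∈ ξ.L i ↔ m.1 ∈ N.L i ∧ (i = 0 → m.1 ∈ imageLattice s)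
  refine ⟨fun hm => ⟨(he m) ▸ hmem _ hm, fun hi => ⟨e m, hi ▸ hm, he m⟩⟩, fun hm => ?_⟩
  fin_cases i
  · obtain ⟨a, ha, e'⟩ := hm.2 rfl
    rwa [← hinj ((e' : toMap s a = _).trans (he m).symm)]
  -- saturation in the second chart
  have hstep : ∀ (n : ℕ) (x : ξ.M), toMap s x ∈ N.L 1 → D.uR R 1 ^ n • x ∈ ξ.L 1 → x ∈ ξ.L 1 := by
    intro n
    induction n with
    | zero => intro x _ hx; simpa using hx
    | succ n ih =>
      intro x hx hn
      refine ih x hx ?_
      rw [pow_succ', mul_smul] at hn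
      set y := D.uR R 1 ^ n • x
      have hy : toMap s y ∈ N.L 1 := by rw [map_smul]; exact N.uR_pow_smul_mem hx
      obtain ⟨c, hc, hc'⟩ := hP _ hy
      have hc'' : c = Polynomial.aeval (D.uR R 1) P • y :=
        hinj (hc'.trans (map_smul (toMap s) _ y).symm)
      rw [← P.X_mul_divX_add, hP0, map_add, map_mul, Polynomial.aeval_X, Polynomial.aeval_C,
        map_one, add_smul, one_smul, mul_comm, mul_smul] at hc''
      rw [show y = c - Polynomial.aeval (D.uR R 1) P.divX • D.uR R 1 • y by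
        rw [hc'', add_sub_cancel_left], aeval_uR_smul]
      exact sub_mem hc ((ξ.L 1).smul_mem _ hn)
  obtain ⟨n, hn⟩ := ξ.exists_uR_pow_smul_mem 1 (e m)
  exact hstep n (e m) ((he m).symm ▸ hm.1) hn

end LB

end Fermat.Agent.Jac

end
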