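import Fermat.Agent.Jac.Chart.Spread.Infinity
import Fermat.Agent.Jac.Chart.Frame

/-!
# Properties near a point, and transport along base change

A frame exists near a point as soon as it does after inverting one function not vanishing there.
-/

set_option autoImplicit false

universe u

noncomputable section

open TensorProduct

namespace Fermat.Agent.Jac

variable {k : Type u} [Field k] {D : CurveData k}
variable {R R' : Type u} [CommRing R] [Algebra k R] [CommRing R'] [Algebra k R']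

/-- Injectivity of a base change to a field descends to a subfield. -/
theorem baseChange_injective_of_field_ext {A κ L M N : Type u} [CommRing A] [Field κ] [Field L]
    [Algebra A κ] [Algebra κ L] [Algebra A L] [IsScalarTower A κ L] [AddCommGroup M] [Module A M]
    [AddCommGroup N] [Module A N] (f : M →ₗ[A] N) (h : Function.Injective (f.baseChange L)) :
    Function.Injective (f.baseChange κ) := by
  let i : κ →ₗ[A] L := (IsScalarTower.toAlgHom A κ L).toLinearMap
  have hi : Function.Injective (i.rTensor M) := by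
    let e := AlgebraTensorModule.cancelBaseChange A κ L L M
    have hinj := Module.Flat.rTensor_preserves_injective_linearMap (M := κ ⊗[A] M)
      (Algebra.linearMap κ L)
      (RingHom.injective (algebraMap κ L))
    have heq : ∀ z, i.rTensor M z = e ((Algebra.linearMap κ L).rTensor (κ ⊗[A] M)
        ((TensorProduct.lid κ (κ ⊗[A] M)).symm z)) := fun z => by
      induction z using TensorProduct.induction_on with
      | zero => simp
      | tmul a m => simp [i, e, Algebra.smul_def]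
      | add x y hx hy => simp only [map_add, hx, hy]
    intro x y hxy
    rw [heq, heq] at hxy
    exact (TensorProduct.lid κ (κ ⊗[A] M)).symm.injective (hinj (e.injective hxy))
  have hsq : ∀ z, f.baseChange L (i.rTensor M z) = i.rTensor N (f.baseChange κ z) := fun z => by
    induction z using TensorProduct.induction_on with
    | zero => simp
    | tmul a m => simp
    | add x y hx hy => simp only [map_add, hx, hy]
  intro x y hxy
  exact hi (h (by rw [hsq, hsq, hxy]))

namespace LB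

variable {φ : R →ₐ[k] R'} {L : LB D R} {L' : LB D R'}

/-- A base change through an intermediate algebra. -/
def Mor.descend {R₀ : Type u} [CommRing R₀] [Algebra k R₀] {φ₀ : R →ₐ[k] R₀} {L₀ : LB D R₀}
    (g₀ : Mor φ₀ L L₀) {ψ : R₀ →ₐ[k] R'} (e : ψ.comp φ₀ = φ) (g : Mor φ L L') : Mor ψ L₀ L' :=
  (L₀.toBaseChange ψ).transIso (((g₀.comp (L₀.toBaseChange ψ)).congr e).targetIso g)

/-- A base change through an intermediate algebra agrees with the given base change. -/
theorem Mor.descend_f {R₀ : Type u} [CommRing R₀] [Algebra k R₀] {φ₀ : R →ₐ[k] R₀} {L₀ : LB D R₀}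
    (g₀ : Mor φ₀ L L₀) {ψ : R₀ →ₐ[k] R'} (e : ψ.comp φ₀ = φ) (g : Mor φ L L') (m : L.M) :
    (g₀.descend e g).f (g₀.f m) = g.f m :=
  Mor.targetIso_apply ((g₀.comp (L₀.toBaseChange ψ)).congr e) g m

/-- The image of the span of images is the span of the composite images. -/
theorem Mor.span_image_span {R₀ : Type u} [CommRing R₀] [Algebra k R₀] {φ₀ : R →ₐ[k] R₀}
    {L₀ : LB D R₀} (g₀ : Mor φ₀ L L₀) {ψ : R₀ →ₐ[k] R'} (g₁ : Mor ψ L₀ L') (g : Mor φ L L')
    (hf : ∀ m, g₁.f (g₀.f m) = g.f m) (i : Fin 2) (X : Set L.M) :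
    Submodule.span (D.A R' i) (g₁.f '' (Submodule.span (D.A R₀ i) (g₀.f '' X) : Set L₀.M)) =
      Submodule.span (D.A R' i) (g.f '' X) := by
  refine le_antisymm (Submodule.span_le.2 ?_) (Submodule.span_le.2 ?_)
  · rintro _ ⟨y, hy, rfl⟩
    induction hy using Submodule.span_induction with
    | mem z hz =>
      obtain ⟨x, hx, rfl⟩ := hz
      rw [SetLike.mem_coe, hf]
      exact Submodule.subset_span ⟨x, hx, rfl⟩
    | zero => simp
    | add a b _ _ ha hb => rw [map_add]; exact add_mem ha hb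
    | smul a b _ hb => rw [SetLike.mem_coe, g₁.f_smul_chart]; exact Submodule.smul_mem _ _ hb
  · rintro _ ⟨x, hx, rfl⟩
    exact Submodule.subset_span ⟨g₀.f x, Submodule.subset_span ⟨x, hx, rfl⟩, hf x⟩

section Transfer

variable {ξ N : LB D R} {ξ' N' : LB D R'} (gξ : Mor φ ξ ξ') (gN : Mor φ N N')

/-- Base change sends global homomorphisms to global homomorphisms. -/
theorem Mor.hom_mem_H0 {s : (ξ.hom N).M} (hs : s ∈ (ξ.hom N).H0) :
    (gξ.hom gN).f s ∈ (ξ'.hom N').H0 :=
  (gξ.hom gN).map_H0 hs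

/-- The image of the first chart commutes with base change. -/
theorem span_image_imageLattice (s : (ξ.hom N).M) :
    Submodule.span (D.A R' 0) (gN.f '' (imageLattice s : Set N.M)) =
      imageLattice ((gξ.hom gN).f s) := by
  rw [imageLattice, imageLattice, ← gξ.span_map 0, Submodule.map_span]
  congr 1
  ext x
  constructor
  · rintro ⟨_, ⟨a, ha, rfl⟩, rfl⟩
    exact ⟨gξ.f a, ⟨a, ha, rfl⟩, Mor.hom_apply gξ gN s a⟩
  · rintro ⟨_, ⟨a, ha, rfl⟩, rfl⟩
    exact ⟨toMap s a, ⟨a, ha, rfl⟩, (Mor.hom_apply gξ gN s a).symm⟩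

/-- The elements reached at infinity by the base change are spanned by the images. -/
theorem ontoSub_le_span_image (s : (ξ.hom N).M) :
    (ontoSub ((gξ.hom gN).f s)).restrictScalars R' ≤
      Submodule.span R' (gN.f '' (ontoSub s : Set N.M)) := by
  rw [← gN.span_image_base 1]
  intro x hx
  have : ontoSub ((gξ.hom gN).f s) ≤ Submodule.span (D.A R' 1) (gN.f '' (ontoSub s : Set N.M)) := by
    refine sup_le ?_ ?_
    · rw [← gξ.span_map 1, Submodule.map_span, Submodule.span_le]
      rintro _ ⟨_, ⟨a, ha, rfl⟩, rfl⟩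
      exact Submodule.subset_span ⟨toMap s a, Submodule.mem_sup_left ⟨a, ha, rfl⟩,
        (Mor.hom_apply gξ gN s a).symm⟩
    · rw [← gN.span_map 1, Submodule.map_span, Submodule.span_le]
      rintro _ ⟨_, ⟨b, hb, rfl⟩, rfl⟩
      refine Submodule.subset_span ⟨D.tR R 1 • b, Submodule.mem_sup_right ⟨b, hb, rfl⟩, ?_⟩
      rw [gN.f_smul_chart, CurveData.mapA_coord]
      rfl
  exact this hx

/-- Being onto at infinity up to a function which becomes invertible is inherited. -/
theorem le_ontoSub_hom {s : (ξ.hom N).M} {r : R} (hr : IsUnit (φ r))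
    (h : ∀ m ∈ N.L 1, r • m ∈ ontoSub s) : N'.L 1 ≤ ontoSub ((gξ.hom gN).f s) := by
  rw [← gN.span_map 1, Submodule.span_le]
  rintro _ ⟨m, hm, rfl⟩
  obtain ⟨a, ha, b, hb, e⟩ := mem_ontoSub.1 (h m hm)
  have hmem : gN.f (r • m) ∈ ontoSub ((gξ.hom gN).f s) := by
    refine mem_ontoSub.2 ⟨gξ.f a, gξ.map_mem ha, gN.f b, gN.map_mem hb, ?_⟩
    rw [Mor.hom_apply gξ gN, ← e, map_add, gN.f_smul_chart, CurveData.mapA_coord]
  rw [gN.f_smul_base] at hmem
  obtain ⟨v, hv⟩ := hr
  have := Submodule.smul_of_tower_mem (ontoSub ((gξ.hom gN).f s)) ((v⁻¹ : R'ˣ) : R') hmem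
  rwa [smul_smul, ← hv, Units.inv_mul, one_smul] at this

end Transfer

/-- A finite quotient of a lattice which vanishes at a point is killed by a function not vanishing
there. -/
theorem exists_smul_mem_of_fibre {K : Type u} [Field K] [Algebra k K] {N : LB D R} {NK : LB D K}
    {φ : R →ₐ[k] K} (gN : Mor φ N NK) (i : Fin 2) (V : Submodule R N.M)
    (hV : V ≤ (N.L i).restrictScalars R)
    [Module.Finite R (((N.L i).restrictScalars R) ⧸ V.comap ((N.L i).restrictScalars R).subtype)]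
    (hle : (NK.L i).restrictScalars K ≤ Submodule.span K (gN.f '' (V : Set N.M))) :
    ∃ r : R, φ r ≠ 0 ∧ ∀ m ∈ N.L i, r • m ∈ V := by
  let : Algebra R K := φ.toRingHom.toAlgebra
  have : IsScalarTower k R K := IsScalarTower.of_algebraMap_eq fun c => (φ.commutes c).symm
  let : Module R NK.M := Module.compHom NK.M φ.toRingHom
  have : IsScalarTower R K NK.M := IsScalarTower.of_algebraMap_smul fun _ _ => rfl
  let g' : Mor (IsScalarTower.toAlgHom k R K) N NK := ⟨gN.f, gN.map_smul, gN.span_map⟩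
  let W := V.comap ((N.L i).restrictScalars R).subtype
  let C := ((N.L i).restrictScalars R) ⧸ W
  let q : N.L i →ₗ[R] C :=
    { toFun := fun m => W.mkQ ⟨m, m.2⟩
      map_add' := fun a b => map_add W.mkQ ⟨(a : N.M), a.2⟩ ⟨b, b.2⟩
      map_smul' := fun r a => map_smul W.mkQ r ⟨(a : N.M), a.2⟩ }
  let u := (g'.isBaseChange_lattice i).lift (TensorProduct.mk R K C 1 ∘ₗ q)
  -- The quotient vanishes after base change to `K`.
  have hu : ∀ y : (NK.L i).restrictScalars K, u y = 0 := by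
    have hker : ∀ v (hv : v ∈ V), u ⟨gN.f v, gN.map_mem (hV hv)⟩ = 0 := fun v hv => by
      rw [show (⟨gN.f v, gN.map_mem (hV hv)⟩ : (NK.L i).restrictScalars K) =
        g'.lattice i ⟨v, hV hv⟩ from rfl, IsBaseChange.lift_eq]
      change (1 : K) ⊗ₜ[R] q ⟨v, hV hv⟩ = 0
      rw [show q ⟨v, hV hv⟩ = 0 from (Submodule.Quotient.mk_eq_zero W).2 hv, tmul_zero]
    rintro ⟨y, hy⟩
    have hy' := hle hy
    suffices ∀ (hyL : y ∈ (NK.L i).restrictScalars K), u ⟨y, hyL⟩ = 0 from this hy
    induction hy' using Submodule.span_induction with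
    | mem z hz =>
      obtain ⟨v, hv, rfl⟩ := hz
      exact fun _ => hker v hv
    | zero => exact fun _ => map_zero u
    | add a b ha hb iha ihb =>
      intro _
      have hsub : Submodule.span K (gN.f '' (V : Set N.M)) ≤ (NK.L i).restrictScalars K :=
        Submodule.span_le.2 (by rintro _ ⟨v, hv, rfl⟩; exact gN.map_mem (hV hv))
      rw [show (⟨a + b, _⟩ : (NK.L i).restrictScalars K) = ⟨a, hsub ha⟩ + ⟨b, hsub hb⟩ from rfl,
        map_add, iha (hsub ha), ihb (hsub hb), add_zero]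
    | smul c a ha iha =>
      intro _
      have hsub : Submodule.span K (gN.f '' (V : Set N.M)) ≤ (NK.L i).restrictScalars K :=
        Submodule.span_le.2 (by rintro _ ⟨v, hv, rfl⟩; exact gN.map_mem (hV hv))
      rw [show (⟨c • a, _⟩ : (NK.L i).restrictScalars K) = c • ⟨a, hsub ha⟩ from rfl,
        map_smul, iha (hsub ha), smul_zero]
  have hzero : Subsingleton (K ⊗[R] C) := by
    refine subsingleton_of_forall_eq 0 fun z => ?_
    induction z using TensorProduct.induction_on with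
    | zero => rfl
    | tmul c x =>
      obtain ⟨⟨m, hm⟩, rfl⟩ := W.mkQ_surjective x
      have h1 : (1 : K) ⊗ₜ[R] W.mkQ ⟨m, hm⟩ = 0 := by
        have := hu (g'.lattice i ⟨m, hm⟩)
        rwa [IsBaseChange.lift_eq] at this
      rw [← mul_one c, ← smul_eq_mul, ← TensorProduct.smul_tmul', h1, smul_zero]
    | add a b ha hb => rw [ha, hb, add_zero]
  -- So the point is outside its support and some `r` not vanishing there kills it.
  let p : PrimeSpectrum R := PrimeSpectrum.comap (algebraMap R K) ⟨⊥, Ideal.isPrime_bot⟩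
  have hp : p ∉ Module.support R C :=
    (subsingleton_iff_of_isBaseChange (TensorProduct.isBaseChange R C K)).1 hzero ⟨_, rfl⟩
  rw [Module.mem_support_iff_of_finite, SetLike.not_le_iff_exists] at hp
  obtain ⟨r, hr, hrp⟩ := hp
  refine ⟨r, fun h => hrp ?_, fun m hm => ?_⟩
  · exact Ideal.mem_comap.2 (Ideal.mem_bot.2 h)
  · have := Module.mem_annihilator.1 hr (W.mkQ ⟨m, hm⟩)
    rw [← map_smul] at this
    exact (Submodule.Quotient.mk_eq_zero W).1 this

/-- The first chart has a frame with sub-bundle `ξ` near the point `φ`. -/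
def FrameNear (ξ N : LB D R) {g : ℕ} (β : Fin g → N.M) {K : Type u} [Field K] [Algebra k K]
    (φ : R →ₐ[k] K) : Prop :=
  ∃ r : R, φ r ≠ 0 ∧ ∀ (R' : Type u) [CommRing R'] [Algebra k R'] (φ' : R →ₐ[k] R'), IsUnit (φ' r) →
    ∀ (N' ξ' : LB D R') (gN' : Mor φ' N N'), Mor φ' ξ ξ' →
      ∃ S' : Submodule (D.A R' 0) N'.M, ∃ h' : N'.IsFrame (fun i => gN'.f (β i)) S',
        (N'.subBundle 0 S' h'.isSubLattice).Isomorphic ξ'

/-- It suffices to find the frame after inverting a function which does not vanish at the point. -/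
theorem frameNear_of_away {ξ N : LB D R} {g : ℕ} {β : Fin g → N.M} {K : Type u} [Field K]
    [Algebra k K] {φ : R →ₐ[k] K} {r₀ : R} (hr₀ : φ r₀ ≠ 0)
    (h : ∀ (R₀ : Type u) [CommRing R₀] [Algebra k R₀] (φ₀ : R →ₐ[k] R₀) (ψ : R₀ →ₐ[k] K),
      IsUnit (φ₀ r₀) → ψ.comp φ₀ = φ → ∀ (N₀ ξ₀ : LB D R₀) (gN₀ : Mor φ₀ N N₀), Mor φ₀ ξ ξ₀ →
        FrameNear ξ₀ N₀ (fun i => gN₀.f (β i)) ψ) :
    FrameNear ξ N β φ := by
  let R₀ := Localization.Away r₀
  let φ₀ : R →ₐ[k] R₀ := IsScalarTower.toAlgHom k R R₀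
  have hunit : ∀ {T : Type u} [CommRing T] [Algebra k T] (χ : R →ₐ[k] T), IsUnit (χ r₀) →
      ∀ y : Submonoid.powers r₀, IsUnit (χ y) := by
    rintro T _ _ χ hχ ⟨_, n, rfl⟩
    exact (map_pow χ r₀ n).symm ▸ hχ.pow n
  let ψ : R₀ →ₐ[k] K := IsLocalization.liftAlgHom (hunit φ (isUnit_iff_ne_zero.2 hr₀))
  have hψ : ψ.comp φ₀ = φ := AlgHom.ext fun x => IsLocalization.lift_eq _ x
  obtain ⟨r₁, hr₁, hspread⟩ :=
    h R₀ φ₀ ψ (IsLocalization.Away.algebraMap_isUnit r₀) hψ (N.baseChange φ₀)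
    (ξ.baseChange φ₀) (N.toBaseChange φ₀) (ξ.toBaseChange φ₀)
  obtain ⟨n, a, ha⟩ := IsLocalization.Away.surj r₀ r₁
  refine ⟨r₀ * a, ?_, fun R' _ _ φ' hu N' ξ' gN' gξ' => ?_⟩
  · rw [map_mul]
    refine mul_ne_zero hr₀ ?_
    rw [← hψ, AlgHom.comp_apply, show φ₀ a = r₁ * φ₀ r₀ ^ n from ha.symm, map_mul, map_pow]
    refine mul_ne_zero hr₁ (pow_ne_zero _ ?_)
    rw [← AlgHom.comp_apply, hψ]
    exact hr₀
  rw [map_mul] at hu
  let ψ' : R₀ →ₐ[k] R' := IsLocalization.liftAlgHom (hunit φ' (isUnit_of_mul_isUnit_left hu))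
  have hψ' : ψ'.comp φ₀ = φ' := AlgHom.ext fun x => IsLocalization.lift_eq _ x
  have hu₁ : IsUnit (ψ' r₁) := by
    have h2 : IsUnit (φ' a) := isUnit_of_mul_isUnit_right hu
    rw [← hψ', AlgHom.comp_apply, show φ₀ a = r₁ * φ₀ r₀ ^ n from ha.symm, map_mul] at h2
    exact isUnit_of_mul_isUnit_left h2
  obtain ⟨S', h', hiso⟩ := hspread R' ψ' hu₁ N' ξ' ((N.toBaseChange φ₀).descend hψ' gN')
    ((ξ.toBaseChange φ₀).descend hψ' gξ')
  have e : (fun i => ((N.toBaseChange φ₀).descend hψ' gN').f ((N.toBaseChange φ₀).f (β i))) =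
      fun i => gN'.f (β i) := funext fun i => Mor.descend_f _ _ _ _
  exact ⟨S', e ▸ h', hiso⟩

end LB

end Fermat.Agent.Jac

end
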